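import Mathlib
import Fermat.Prelude.Def_EllipticCurve_FrobeniusTrace

/-!
# Existence of places and Frobenius elements in `Gal(ℚ̄/ℚ)`
-/

set_option autoImplicit false
set_option linter.style.haveILetI false

open scoped Pointwise
open Polynomial

namespace FA_h5

local notation "Qbar" => AlgebraicClosure ℚ
local notation "GQ" => (AlgebraicClosure ℚ ≃ₐ[ℚ] AlgebraicClosure ℚ)
local notation "Zbar" => integralClosure ℤ (AlgebraicClosure ℚ)

theorem isAlgebraic_Qbar : Algebra.IsAlgebraic ℚ Qbar := AlgebraicClosure.isAlgebraic ℚ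

theorem isGalois_Qbar : IsGalois ℚ Qbar :=
  haveI := isAlgebraic_Qbar
  haveI : IsAlgClosure ℚ Qbar := ⟨inferInstance, inferInstance⟩
  IsAlgClosure.isGalois ℚ Qbar

/-- An element lying in all valuation subrings is integral over `ℤ`. -/
theorem isIntegral_of_forall_mem {K : Type*} [Field K] {x : K}
    (h : ∀ V : ValuationSubring K, x ∈ V) : IsIntegral ℤ x := by
  by_contra hx
  have hx' : x ∉ (integralClosure ℤ K).toSubring := hx
  haveI : IsIntegrallyClosedIn (integralClosure ℤ K).toSubring K :=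
    inferInstanceAs (IsIntegrallyClosedIn (integralClosure ℤ K) K)
  obtain ⟨V, -, hV⟩ := Subring.exists_le_valuationSubring_of_isIntegrallyClosedIn hx'
  exact hV (h V)

theorem mem_of_isIntegral {K : Type*} [Field K] (V : ValuationSubring K) {x : K}
    (h : IsIntegral ℤ x) : x ∈ V := by
  have h' : IsIntegral V x := h.tower_top
  obtain ⟨y, hy⟩ := IsIntegrallyClosed.isIntegral_iff.mp h'
  rw [← hy]
  exact y.2

theorem aeval_mem {K : Type*} [Field K] (V : ValuationSubring K) {x : K} (hx : x ∈ V)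
    (u : ℤ[X]) : aeval x u ∈ V := by
  have : aeval x u = ((aeval (⟨x, hx⟩ : V) u : V) : K) := by
    have := Polynomial.aeval_algebraMap_apply K (⟨x, hx⟩ : V) u
    exact this
  rw [this]
  exact Subtype.property _

theorem one_notMem_nonunits {K : Type*} [Field K] (A : ValuationSubring K) :
    (1 : K) ∉ A.nonunits := by
  intro h
  obtain ⟨h1, h2⟩ := ValuationSubring.mem_nonunits_iff_exists_mem_maximalIdeal.mp h
  exact (Ideal.ne_top_iff_one _).mp (IsLocalRing.maximalIdeal.isMaximal A).ne_top h2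

/-- Key lemma: a valuation subring over `ℓ` of a field algebraic over `ℤ` is the localisation
of the ring of integral elements. -/
theorem exists_integral_mul_eq {K : Type*} [Field K] [CharZero K] {ℓ : ℕ} (hℓ : ℓ.Prime)
    (A : ValuationSubring K) (hA : (ℓ : K) ∈ A.nonunits) {x : K} (hxalg : IsAlgebraic ℤ x)
    (hx : x ∈ A) :
    ∃ b c : K, IsIntegral ℤ b ∧ IsIntegral ℤ c ∧ b ∉ A.nonunits ∧ x * b = c := by
  classical
  haveI : Fact ℓ.Prime := ⟨hℓ⟩
  by_cases hx0 : x = 0
  · exact ⟨1, 0, isIntegral_one, isIntegral_zero, one_notMem_nonunits A, by simp [hx0]⟩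
  -- a primitive polynomial killing x
  obtain ⟨p0, hp0, hp0x⟩ := hxalg
  set p := p0.primPart with hp
  have hprim : p.IsPrimitive := p0.isPrimitive_primPart
  have hpx : aeval x p = 0 := by
    have h1 := congrArg (aeval x) p0.eq_C_content_mul_primPart
    rw [hp0x, map_mul, aeval_C] at h1
    have hc : (algebraMap ℤ K) p0.content ≠ 0 := by
      rw [eq_intCast, Int.cast_ne_zero]
      exact content_eq_zero_iff.not.mpr hp0
    exact (mul_eq_zero.mp h1.symm).resolve_left hc
  -- reduction mod ℓ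
  set f : ℤ →+* ZMod ℓ := Int.castRingHom (ZMod ℓ) with hf
  set pbar := p.map f with hpbar
  have hpbar0 : pbar ≠ 0 := by
    intro h
    have hdvd : C (ℓ : ℤ) ∣ p := by
      rw [C_dvd_iff_dvd_coeff]
      intro i
      have := congrArg (fun q => q.coeff i) h
      simp only [hpbar, coeff_map, coeff_zero] at this
      exact (ZMod.intCast_zmod_eq_zero_iff_dvd _ _).mp this
    have := hprim _ hdvd
    exact (Nat.prime_iff_prime_int.mp hℓ).not_isUnit this
  set k := pbar.natDegree with hk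
  have hmonic : (X ^ k : ℤ[X]).Monic := monic_X_pow k
  set u := p /ₘ X ^ k with hu
  set r := p %ₘ X ^ k with hr
  have hdecomp : r + X ^ k * u = p := modByMonic_add_div p _
  -- u mod ℓ is a nonzero constant
  have hubar : u.map f = pbar /ₘ X ^ k := by
    rw [hu, map_divByMonic f hmonic, Polynomial.map_pow, map_X]
  have hubar_deg : (u.map f).natDegree = 0 := by
    rw [hubar, natDegree_divByMonic _ (monic_X_pow k), natDegree_X_pow, ← hk, Nat.sub_self]
  have hubar0 : u.map f ≠ 0 := by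
    rw [hubar, Ne, divByMonic_eq_zero_iff (monic_X_pow k), not_lt, degree_X_pow,
      degree_eq_natDegree hpbar0]
  obtain ⟨a, ha⟩ : ∃ a : ZMod ℓ, u.map f = C a := ⟨_, eq_C_of_natDegree_eq_zero hubar_deg⟩
  have ha0 : a ≠ 0 := by
    rintro rfl
    exact hubar0 (by rw [ha, C_0])
  -- residue field
  have hℓres : ((ℓ : ℕ) : IsLocalRing.ResidueField A) = 0 := by
    obtain ⟨h1, h2⟩ := ValuationSubring.mem_nonunits_iff_exists_mem_maximalIdeal.mp hA
    have h3 := (IsLocalRing.residue_eq_zero_iff _).mpr h2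
    have h4 : (⟨(ℓ : K), h1⟩ : A) = ((ℓ : ℕ) : A) := by
      ext; simp
    rw [h4, map_natCast] at h3
    exact h3
  haveI : CharP (IsLocalRing.ResidueField A) ℓ := (CharP.charP_iff_prime_eq_zero hℓ).mpr hℓres
  letI : Algebra (ZMod ℓ) (IsLocalRing.ResidueField A) := ZMod.algebra _ ℓ
  set xA : A := ⟨x, hx⟩ with hxA
  set bA : A := aeval xA u with hbA
  have hbres : IsLocalRing.residue A bA ≠ 0 := by
    have h1 : IsLocalRing.residue A bA =
        eval₂ (Int.castRingHom (IsLocalRing.ResidueField A)) (IsLocalRing.residue A xA) u := by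
      rw [hbA, aeval_def, hom_eval₂]
      congr 1
    have h2 : Int.castRingHom (IsLocalRing.ResidueField A) =
        (algebraMap (ZMod ℓ) (IsLocalRing.ResidueField A)).comp f := RingHom.ext_int _ _
    rw [h1, h2, ← eval₂_map, ha, eval₂_C]
    exact (_root_.map_ne_zero _).mpr ha0
  set b : K := aeval x u with hb
  have hbcoe : (bA : K) = b := by
    have := Polynomial.aeval_algebraMap_apply K xA u
    exact this.symm
  have hbnon : b ∉ A.nonunits := by
    intro h
    obtain ⟨h1, h2⟩ := ValuationSubring.mem_nonunits_iff_exists_mem_maximalIdeal.mp h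
    apply hbres
    rw [IsLocalRing.residue_eq_zero_iff]
    convert h2
  have hb0 : b ≠ 0 := by
    intro h
    apply hbres
    have : bA = 0 := by ext; rw [hbcoe, h]; rfl
    rw [this, map_zero]
  have hrel : aeval x r + x ^ k * b = 0 := by
    have := congrArg (aeval x) hdecomp
    rw [map_add, map_mul, map_pow, aeval_X, hpx] at this
    exact this
  have hk0 : k ≠ 0 := by
    intro h0
    have hr0 : r = 0 := by rw [hr, h0, pow_zero, modByMonic_one]
    rw [hr0, map_zero, zero_add, h0, pow_zero, one_mul] at hrel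
    exact hb0 hrel
  have hrdeg : r.natDegree ≤ k - 1 := by
    have hne : (X ^ k : ℤ[X]) ≠ 1 := by
      intro h
      have := congrArg natDegree h
      rw [natDegree_X_pow, natDegree_one] at this
      exact hk0 this
    have := natDegree_modByMonic_lt p hmonic hne
    rw [natDegree_X_pow, ← hr] at this
    omega
  -- c = x * b is a polynomial in x⁻¹
  letI : Invertible x := invertibleOfNonzero hx0
  set R := reflect (k - 1) r with hR
  have hrefl : aeval x⁻¹ R * x ^ (k - 1) = aeval x r := by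
    have := eval₂_reflect_mul_pow (algebraMap ℤ K) x (k - 1) r hrdeg
    rw [invOf_eq_inv] at this
    exact this
  have hc : x * b = - aeval x⁻¹ R := by
    have hxk : x ^ k = x ^ (k - 1) * x := by
      rw [← pow_succ, Nat.sub_add_cancel (Nat.pos_of_ne_zero hk0)]
    have hne : x ^ (k - 1) ≠ 0 := pow_ne_zero _ hx0
    have h1 : x ^ (k - 1) * (aeval x⁻¹ R + x * b) = 0 := by
      rw [← hrel, ← hrefl, hxk]; ring
    have h2 := (mul_eq_zero.mp h1).resolve_left hne
    linear_combination h2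
  have hcint : IsIntegral ℤ (x * b) := by
    apply isIntegral_of_forall_mem
    intro V
    rcases V.mem_or_inv_mem x with hxV | hxV
    · exact V.mul_mem _ _ hxV (aeval_mem V hxV u)
    · rw [hc]
      exact V.neg_mem _ (aeval_mem V hxV R)
  have hbint : IsIntegral ℤ b := by
    apply isIntegral_of_forall_mem
    intro V
    rcases V.mem_or_inv_mem x with hxV | hxV
    · exact aeval_mem V hxV u
    · have : b = x⁻¹ * (x * b) := by field_simp
      rw [this]
      exact V.mul_mem _ _ hxV (mem_of_isIntegral V hcint)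
  exact ⟨b, x * b, hbint, hcint, hbnon, rfl⟩

theorem exists_liesOverPrime {ℓ : ℕ} (hℓ : ℓ.Prime) :
    ∃ A : ValuationSubring Qbar, A.LiesOverPrime ℓ := by
  let R : Subring Qbar := (integralClosure ℤ Qbar).toSubring
  let I : Ideal R := Ideal.span {((ℓ : ℕ) : R)}
  have hI : I ≠ ⊤ := by
    intro h
    rw [Ideal.span_singleton_eq_top] at h
    obtain ⟨u, hu⟩ := h
    -- 1/ℓ integral
    have h1 : ((ℓ : ℕ) : R) * (↑u⁻¹ : R) = 1 := by rw [← hu]; exact u.mul_inv
    have h2 : (ℓ : Qbar) * ((↑u⁻¹ : R) : Qbar) = 1 := by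
      have := congrArg (fun z : R => (z : Qbar)) h1
      simpa using this
    have hint : IsIntegral ℤ ((↑u⁻¹ : R) : Qbar) := (↑u⁻¹ : R).2
    have hℓ0 : (ℓ : Qbar) ≠ 0 := by exact_mod_cast hℓ.ne_zero
    have hval : ((↑u⁻¹ : R) : Qbar) = algebraMap ℚ Qbar ((ℓ : ℚ)⁻¹) := by
      rw [map_inv₀, map_natCast]
      field_simp
      linear_combination h2
    rw [hval] at hint
    have hintQ : IsIntegral ℤ ((ℓ : ℚ)⁻¹) :=
      (isIntegral_algebraMap_iff (algebraMap ℚ Qbar).injective).mp hint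
    obtain ⟨m, hm⟩ := IsIntegrallyClosed.isIntegral_iff.mp hintQ
    rw [eq_intCast] at hm
    have hpQ : (ℓ : ℚ) ≠ 0 := by exact_mod_cast hℓ.ne_zero
    have hmul : ((ℓ * m : ℤ) : ℚ) = ((1 : ℤ) : ℚ) := by
      push_cast; rw [hm]; field_simp
    have hdvd : (ℓ : ℤ) ∣ 1 := ⟨m, (Int.cast_injective hmul).symm⟩
    have hple : (ℓ : ℤ) ≤ 1 := Int.le_of_dvd one_pos hdvd
    have := hℓ.two_le; omega
  obtain ⟨B, -, hB⟩ := Ideal.image_subset_nonunits_valuationSubring I hI
  refine ⟨B, ?_⟩
  have : (ℓ : Qbar) ∈ R.subtype '' (I : Set R) :=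
    ⟨((ℓ : ℕ) : R), Ideal.subset_span rfl, by simp⟩
  exact hB this

theorem isInvariant_Zbar : Algebra.IsInvariant ℤ Zbar GQ := by
  haveI := isGalois_Qbar
  refine ⟨fun b hb => ?_⟩
  have h1 : (b : Qbar) ∈ (⊥ : IntermediateField ℚ Qbar) := by
    rw [InfiniteGalois.mem_bot_iff_fixed]
    intro g
    exact congrArg Subtype.val (hb g)
  obtain ⟨q, hq⟩ := IntermediateField.mem_bot.mp h1
  have hint : IsIntegral ℤ (algebraMap ℚ Qbar q) := hq ▸ b.2
  have hintQ : IsIntegral ℤ q := (isIntegral_algebraMap_iff (algebraMap ℚ Qbar).injective).mp hint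
  obtain ⟨m, hm⟩ := IsIntegrallyClosed.isIntegral_iff.mp hintQ
  refine ⟨m, Subtype.ext ?_⟩
  rw [← hq, ← hm]
  simp

theorem continuousSMul_Zbar [TopologicalSpace Zbar] [DiscreteTopology Zbar] :
    ContinuousSMul GQ Zbar := by
  haveI := isAlgebraic_Qbar
  refine ⟨?_⟩
  rw [continuous_prod_of_discrete_right]
  intro b
  rw [continuous_discrete_rng]
  intro c
  rw [isOpen_iff_mem_nhds]
  intro g hg
  let E := IntermediateField.adjoin ℚ ({(b : Qbar)} : Set Qbar)
  haveI : FiniteDimensional ℚ E := IntermediateField.adjoin.finiteDimensional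
    (Algebra.IsIntegral.isIntegral (R := ℚ) (b : Qbar))
  have hopen : IsOpen (g • (E.fixingSubgroup : Set GQ)) := E.fixingSubgroup_isOpen.leftCoset g
  refine Filter.mem_of_superset (hopen.mem_nhds ⟨1, E.fixingSubgroup.one_mem, mul_one g⟩) ?_
  rintro _ ⟨h, hh, rfl⟩
  have hhb : h (b : Qbar) = b := by
    have := (IntermediateField.mem_fixingSubgroup_iff E h).mp hh (b : Qbar)
      (IntermediateField.mem_adjoin_simple_self ℚ _)
    exact this
  show (g * h) • b = c
  rw [← hg]
  apply Subtype.ext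
  show (g * h) (b : Qbar) = g (b : Qbar)
  rw [AlgEquiv.mul_apply, hhb]

/-- The inclusion of the ring of algebraic integers into a valuation subring. -/
noncomputable def zbarToVal (A : ValuationSubring Qbar) : Zbar →+* A :=
  ((integralClosure ℤ Qbar).val.toRingHom).codRestrict A.toSubring
    (fun b => mem_of_isIntegral A b.2)

@[simp] theorem coe_zbarToVal (A : ValuationSubring Qbar) (b : Zbar) :
    ((zbarToVal A b : A) : Qbar) = (b : Qbar) := rfl

/-- The centre of a valuation subring on the ring of algebraic integers. -/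
noncomputable def centre (A : ValuationSubring Qbar) : Ideal Zbar :=
  (IsLocalRing.maximalIdeal A).comap (zbarToVal A)

instance (A : ValuationSubring Qbar) : (centre A).IsPrime :=
  Ideal.comap_isPrime _ _

theorem mem_centre_iff (A : ValuationSubring Qbar) (b : Zbar) :
    b ∈ centre A ↔ (b : Qbar) ∈ A.nonunits := by
  rw [centre, Ideal.mem_comap, ValuationSubring.mem_nonunits_iff_exists_mem_maximalIdeal]
  constructor
  · intro h
    exact ⟨mem_of_isIntegral A b.2, h⟩
  · rintro ⟨h1, h2⟩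
    exact h2

theorem isAlgebraic_int (x : Qbar) : IsAlgebraic ℤ x := by
  haveI := isAlgebraic_Qbar
  have h : IsAlgebraic ℚ x := Algebra.IsAlgebraic.isAlgebraic x
  exact (IsFractionRing.isAlgebraic_iff ℤ ℚ Qbar).mpr h

/-- An automorphism stabilising the centre maps the valuation ring into itself. -/
theorem apply_mem_of_smul_centre {ℓ : ℕ} (hℓ : ℓ.Prime) (A : ValuationSubring Qbar)
    (hA : A.LiesOverPrime ℓ) (τ : GQ) (hτ : τ • centre A = centre A) {x : Qbar} (hx : x ∈ A) :
    τ x ∈ A := by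
  obtain ⟨b, c, hb, hc, hbn, hxb⟩ := exists_integral_mul_eq hℓ A hA (isAlgebraic_int x) hx
  have hτb : IsIntegral ℤ (τ b) := hb.map τ
  have hτc : IsIntegral ℤ (τ c) := hc.map τ
  have hτbn : τ b ∉ A.nonunits := by
    intro h
    have h1 : (⟨τ b, hτb⟩ : Zbar) ∈ centre A := (mem_centre_iff A _).mpr h
    rw [← hτ, Ideal.mem_pointwise_smul_iff_inv_smul_mem] at h1
    have h2 : τ⁻¹ • (⟨τ b, hτb⟩ : Zbar) = ⟨b, hb⟩ := by
      apply Subtype.ext
      show τ⁻¹ (τ b) = b
      exact τ.symm_apply_apply b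
    rw [h2, mem_centre_iff] at h1
    exact hbn h1
  have hτbA : τ b ∈ A := mem_of_isIntegral A hτb
  have hunit : IsUnit (⟨τ b, hτbA⟩ : A) := by
    by_contra hnu
    apply hτbn
    rw [ValuationSubring.mem_nonunits_iff_exists_mem_maximalIdeal]
    exact ⟨hτbA, (IsLocalRing.mem_maximalIdeal _).mpr hnu⟩
  obtain ⟨v, hv⟩ := hunit
  have h1 : τ b * ((↑v⁻¹ : A) : Qbar) = 1 := by
    have h2 : (⟨τ b, hτbA⟩ : A) * (↑v⁻¹ : A) = 1 := by rw [← hv]; exact v.mul_inv
    exact congrArg Subtype.val h2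
  have h3 : τ x * τ b = τ c := by rw [← map_mul, hxb]
  have h4 : τ x = τ c * ((↑v⁻¹ : A) : Qbar) := by
    rw [← h3, mul_assoc, h1, mul_one]
  rw [h4]
  exact A.mul_mem _ _ (mem_of_isIntegral A hτc) (Subtype.property _)

theorem mem_decompositionSubgroup_of_smul_centre {ℓ : ℕ} (hℓ : ℓ.Prime)
    (A : ValuationSubring Qbar) (hA : A.LiesOverPrime ℓ) (τ : GQ)
    (hτ : τ • centre A = centre A) : τ ∈ A.decompositionSubgroup ℚ := by
  have hτ' : τ⁻¹ • centre A = centre A := by
    conv_lhs => rw [← hτ]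
    rw [inv_smul_smul]
  show τ • A = A
  ext x
  rw [ValuationSubring.mem_pointwise_smul_iff_inv_smul_mem]
  constructor
  · intro h
    have := apply_mem_of_smul_centre hℓ A hA τ hτ h
    rwa [AlgEquiv.smul_def, AlgEquiv.aut_inv, AlgEquiv.apply_symm_apply] at this
  · intro h
    exact apply_mem_of_smul_centre hℓ A hA τ⁻¹ hτ' h

theorem natCast_mem_centre {ℓ : ℕ} (A : ValuationSubring Qbar) (hA : A.LiesOverPrime ℓ) :
    ((ℓ : ℕ) : Zbar) ∈ centre A := by
  rw [mem_centre_iff]
  have : (((ℓ : ℕ) : Zbar) : Qbar) = (ℓ : Qbar) := by simp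
  rw [this]
  exact hA

theorem centre_liesOver {ℓ : ℕ} (hℓ : ℓ.Prime) (A : ValuationSubring Qbar)
    (hA : A.LiesOverPrime ℓ) : (centre A).LiesOver (Ideal.span {(ℓ : ℤ)}) := by
  constructor
  have hmax : (Ideal.span {(ℓ : ℤ)}).IsMaximal :=
    PrincipalIdealRing.isMaximal_of_irreducible (Nat.prime_iff_prime_int.mp hℓ).irreducible
  have hle : Ideal.span {(ℓ : ℤ)} ≤ (centre A).under ℤ := by
    rw [Ideal.span_singleton_le_iff_mem, Ideal.mem_comap]
    have : algebraMap ℤ Zbar (ℓ : ℤ) = ((ℓ : ℕ) : Zbar) := by simp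
    rw [this]
    exact natCast_mem_centre A hA
  have hne : (centre A).under ℤ ≠ ⊤ := (Ideal.IsPrime.under ℤ (centre A)).ne_top
  exact hmax.eq_of_le hne hle

theorem exists_frobenius_quotient {ℓ : ℕ} (hℓ : ℓ.Prime) (A : ValuationSubring Qbar)
    (hA : A.LiesOverPrime ℓ) :
    haveI := centre_liesOver hℓ A hA
    ∃ f : (Zbar ⧸ centre A) ≃ₐ[ℤ ⧸ Ideal.span {(ℓ : ℤ)}] (Zbar ⧸ centre A), ∀ x, f x = x ^ ℓ := by
  haveI := centre_liesOver hℓ A hA
  haveI : Fact ℓ.Prime := ⟨hℓ⟩
  have h0 : ((ℓ : ℕ) : Zbar ⧸ centre A) = 0 := by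
    have := Ideal.Quotient.eq_zero_iff_mem.mpr (natCast_mem_centre A hA)
    rwa [map_natCast] at this
  haveI : CharP (Zbar ⧸ centre A) ℓ := (CharP.charP_iff_prime_eq_zero hℓ).mpr h0
  have hinj : Function.Injective (frobenius (Zbar ⧸ centre A) ℓ) := frobenius_inj _ ℓ
  have hsurj : Function.Surjective (frobenius (Zbar ⧸ centre A) ℓ) := by
    intro y
    obtain ⟨b, rfl⟩ := Ideal.Quotient.mk_surjective y
    obtain ⟨z, hz⟩ := IsAlgClosed.exists_pow_nat_eq (b : Qbar) hℓ.pos
    have hzint : IsIntegral ℤ z := by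
      apply IsIntegral.of_pow hℓ.pos
      rw [hz]
      exact b.2
    refine ⟨Ideal.Quotient.mk _ ⟨z, hzint⟩, ?_⟩
    rw [frobenius_def, ← map_pow]
    congr 1
    exact Subtype.ext hz
  let e : (Zbar ⧸ centre A) ≃+* (Zbar ⧸ centre A) := RingEquiv.ofBijective _ ⟨hinj, hsurj⟩
  refine ⟨AlgEquiv.ofRingEquiv (f := e) ?_, fun x => rfl⟩
  intro r
  obtain ⟨n, rfl⟩ := Ideal.Quotient.mk_surjective r
  have h1 : (Ideal.Quotient.mk (Ideal.span {(ℓ : ℤ)})) n = ((n : ℤ) : ℤ ⧸ Ideal.span {(ℓ : ℤ)}) := by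
    simp
  rw [h1, map_intCast, map_intCast]

/-- Existence of a Frobenius element at every place of `ℚ̄` above a prime `ℓ`. -/
theorem exists_isFrobeniusAt {ℓ : ℕ} (hℓ : ℓ.Prime) (A : ValuationSubring Qbar)
    (hA : A.LiesOverPrime ℓ) : ∃ σ : GQ, A.IsFrobeniusAt σ ℓ := by
  classical
  haveI := centre_liesOver hℓ A hA
  haveI := isGalois_Qbar
  haveI := isAlgebraic_Qbar
  letI : TopologicalSpace Zbar := ⊥
  haveI : DiscreteTopology Zbar := ⟨rfl⟩
  haveI := continuousSMul_Zbar
  haveI := isInvariant_Zbar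
  obtain ⟨f, hf⟩ := exists_frobenius_quotient hℓ A hA
  obtain ⟨τ, hτ⟩ := Ideal.Quotient.stabilizerHom_surjective_of_profinite (G := GQ)
    (Ideal.span {(ℓ : ℤ)}) (centre A) f
  have hstab : (τ : GQ) • centre A = centre A := τ.2
  have hdec := mem_decompositionSubgroup_of_smul_centre hℓ A hA τ hstab
  -- congruence on integral elements
  have hcong : ∀ b : Zbar, (τ : GQ) (b : Qbar) - (b : Qbar) ^ ℓ ∈ A.nonunits := by
    intro b
    have h1 := Ideal.Quotient.stabilizerHom_apply (centre A) (Ideal.span {(ℓ : ℤ)}) GQ τ b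
    rw [hτ, hf, ← map_pow, eq_comm, Ideal.Quotient.eq, mem_centre_iff] at h1
    exact h1
  refine ⟨τ, hdec, ?_⟩
  intro xbar
  obtain ⟨x, rfl⟩ := IsLocalRing.residue_surjective xbar
  rw [← IsLocalRing.ResidueField.residue_smul, ← map_pow]
  obtain ⟨b, c, hb, hc, hbn, hxb⟩ := exists_integral_mul_eq hℓ A hA (isAlgebraic_int x) x.2
  set g : A.decompositionSubgroup ℚ := ⟨τ, hdec⟩ with hg
  have hres : ∀ (z : Qbar) (hz : IsIntegral ℤ z),
      IsLocalRing.residue A (g • (⟨z, mem_of_isIntegral A hz⟩ : A)) =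
        IsLocalRing.residue A ((⟨z, mem_of_isIntegral A hz⟩ : A) ^ ℓ) := by
    intro z hz
    rw [← sub_eq_zero, ← map_sub, IsLocalRing.residue_eq_zero_iff]
    obtain ⟨h1, h2⟩ := ValuationSubring.mem_nonunits_iff_exists_mem_maximalIdeal.mp
      (hcong ⟨z, hz⟩)
    convert h2
    rfl
  set bA : A := ⟨b, mem_of_isIntegral A hb⟩ with hbA
  set cA : A := ⟨c, mem_of_isIntegral A hc⟩ with hcA
  have hxbA : x * bA = cA := Subtype.ext hxb
  have hbres : IsLocalRing.residue A bA ≠ 0 := by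
    intro h
    rw [IsLocalRing.residue_eq_zero_iff] at h
    exact hbn (ValuationSubring.mem_nonunits_iff_exists_mem_maximalIdeal.mpr ⟨_, h⟩)
  have h1 : IsLocalRing.residue A (g • x) * IsLocalRing.residue A (bA ^ ℓ) =
      IsLocalRing.residue A (x ^ ℓ) * IsLocalRing.residue A (bA ^ ℓ) := by
    have e1 : IsLocalRing.residue A (g • x) * IsLocalRing.residue A (bA ^ ℓ) =
        IsLocalRing.residue A (cA ^ ℓ) := by
      rw [← hres b hb, ← map_mul, ← smul_mul', hxbA, hres c hc]
    rw [e1, ← map_mul, ← mul_pow, hxbA]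
  have h2 : IsLocalRing.residue A (bA ^ ℓ) ≠ 0 := by
    rw [map_pow]
    exact pow_ne_zero _ hbres
  exact mul_right_cancel₀ h2 h1

end FA_h5
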